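/-
Project C1 (S34 + S35), architect helper23.  TASK C1-M2: the `q`-expansion of the norm along `α`.

Proof.  `Ω := LaurentSeries Kbar` is an `FN M`-algebra through `x ↦ qExpand (M q) x`.  The `q + 1`
embeddings of `FN (M q)` over `FN M`: `τ_∞ u = qExpand (M q) u` and `τ_b`
(`Lib.MulHecke.exists_embedding M q _ b`, `b < q`).  By `FN_mul_induction`,
`τ_b u = qExpand M (twist (zetaK q ^ b) (w u))` (both sides are ring homs; on `α x`:
`twist ζ (qExpand q x) = qExpand q x` for `ζ ^ q = 1`; on `β x`: clear).  They are pairwise distinct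
(look at `β j`), `finrank = q + 1` (`Lib.MulHecke.finrank_algAlpha`), characteristic zero, so
`Lib.MulHecke.algebraMap_norm_eq_prod` gives
`qExpand (M q) (nm u) = qExpand (M q) u * ∏_b qExpand M (twist (ζ^b) (w u))`; finally
`qExpand (M q) = qExpand M ∘ qExpand q` and `qExpand M` is injective.
(Compare `Lib/MulHecke/QExp.lean`, which is the special case `u = β x`.)
-/
import Fermat.Agent.C1.AL
import Fermat.Agent.Lib.MulHecke.Embed
import Fermat.Agent.Lib.MulHecke.Degree
import Fermat.Agent.Lib.MulHecke.NormProd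

set_option autoImplicit false

noncomputable section

namespace Fermat.Agent.C1

open ModularCurve AlgebraicCurve Fermat.Agent.S24 Fermat.Agent.S24.B Fermat.Agent.GAL
  Fermat.Agent.GAL.E

/-- The norm formula of `Lib/MulHecke/NormProd.lean` for ring homomorphisms. -/
theorem nrm_map_norm_eq_prod {F E Ω ι : Type*} [Field F] [Field E] [Field Ω] [Algebra F E]
    [FiniteDimensional F E] [Algebra.IsSeparable F E] [Fintype ι] (φ : F →+* Ω)
    (τ : ι → E →+* Ω) (hφ : ∀ i x, τ i (algebraMap F E x) = φ x) (hτ : Function.Injective τ)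
    (hcard : Fintype.card ι = Module.finrank F E) (y : E) :
    φ (Algebra.norm F y) = ∏ i, τ i y := by
  let _ := φ.toAlgebra
  refine Lib.MulHecke.algebraMap_norm_eq_prod (Ω := Ω)
    (fun i => ({ τ i with commutes' := hφ i } : E →ₐ[F] Ω)) ?_ hcard y
  intro i j hij
  apply hτ
  ext x
  exact DFunLike.congr_fun hij x

/-- `x ↦ x(t^K)`. -/
def nrmExpHom (K N : ℕ) [NeZero K] : FN N →+* LaurentSeries Kbar :=
  (qExpand Kbar K).comp (modularFunctionFieldBar N).val.toRingHom

theorem nrmExpHom_apply (K N : ℕ) [NeZero K] (x : FN N) :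
    nrmExpHom K N x = qExpand Kbar K (x : LaurentSeries Kbar) := rfl

/-- The `q + 1` embeddings. -/
def nrmEmb (M q : ℕ) [NeZero M] [NeZero q] (hcop : Nat.Coprime q M) :
    Option (Fin q) → FN (M * q) →+* LaurentSeries Kbar
  | none => nrmExpHom (M * q) (M * q)
  | some b => (Lib.MulHecke.exists_embedding M q hcop b).choose

theorem nrmEmb_some_alpha (M q : ℕ) [NeZero M] [NeZero q] (hcop : Nat.Coprime q M)
    (b : Fin q) (x : FN M) : nrmEmb M q hcop (some b) (heckeAlphaBar Kbar M q x) =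
      qExpand Kbar (M * q) (x : LaurentSeries Kbar) :=
  (Lib.MulHecke.exists_embedding M q hcop b).choose_spec.1 x

theorem nrmEmb_some_beta (M q : ℕ) [NeZero M] [NeZero q] (hcop : Nat.Coprime q M)
    (b : Fin q) (x : FN M) : nrmEmb M q hcop (some b) (heckeBetaBar Kbar M q x) =
      qExpand Kbar M (twist (zetaK q ^ (b : ℕ)) (x : LaurentSeries Kbar)) :=
  (Lib.MulHecke.exists_embedding M q hcop b).choose_spec.2 x

theorem nrmEmb_none (M q : ℕ) [NeZero M] [NeZero q] (hcop : Nat.Coprime q M) :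
    nrmEmb M q hcop none = nrmExpHom (M * q) (M * q) := rfl

theorem nrmEmb_none_alpha (M q : ℕ) [NeZero M] [NeZero q] (hcop : Nat.Coprime q M)
    (x : FN M) : nrmEmb M q hcop none (heckeAlphaBar Kbar M q x) =
      qExpand Kbar (M * q) (x : LaurentSeries Kbar) := by
  rw [nrmEmb_none, nrmExpHom_apply, coe_heckeAlphaBar]

theorem nrmEmb_none_beta (M q : ℕ) [NeZero M] [NeZero q] (hcop : Nat.Coprime q M)
    (x : FN M) : nrmEmb M q hcop none (heckeBetaBar Kbar M q x) =
      qExpand Kbar (M * q) (qExpand Kbar q (x : LaurentSeries Kbar)) := by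
  rw [nrmEmb_none, nrmExpHom_apply, coe_heckeBetaBar]

theorem nrm_coe_jF (N : ℕ) : ((jF N : FN N) : LaurentSeries Kbar) = Jser 1 := rfl

/-- the coefficient at `-M` of the image of `j(q τ)` separates the embeddings -/
theorem nrmEmb_none_coeff (M q : ℕ) [NeZero M] [NeZero q] (hq : q.Prime)
    (hcop : Nat.Coprime q M) :
    (nrmEmb M q hcop none (heckeBetaBar Kbar M q (jF M))).coeff (-(M : ℤ)) = 0 := by
  rw [nrmEmb_none_beta]
  apply qExpand_coeff_of_not_dvd
  intro h
  rw [dvd_neg] at h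
  have h2 : M * q ∣ M := by exact_mod_cast h
  have h3 : M * q ≤ M := Nat.le_of_dvd (Nat.pos_of_ne_zero (NeZero.ne M)) h2
  have h4 := hq.two_le
  have h5 : 0 < M := Nat.pos_of_ne_zero (NeZero.ne M)
  nlinarith

theorem nrmEmb_some_coeff (M q : ℕ) [NeZero M] [NeZero q]
    (hcop : Nat.Coprime q M) (b : Fin q) :
    (nrmEmb M q hcop (some b) (heckeBetaBar Kbar M q (jF M))).coeff (-(M : ℤ)) =
      (((zetaK q ^ (b : ℕ))⁻¹ : Kbarˣ) : Kbar) := by
  rw [nrmEmb_some_beta, nrm_coe_jF, show (-(M : ℤ)) = (M : ℤ) * (-1) by ring, qExpand_coeff_mul,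
    twist_coeff, Jser_one_coeff_neg_one, mul_one, zpow_neg_one]

theorem nrmEmb_injective (M q : ℕ) [NeZero M] [NeZero q] (hq : q.Prime)
    (hcop : Nat.Coprime q M) : Function.Injective (nrmEmb M q hcop) := by
  intro i j hij
  have h : (nrmEmb M q hcop i (heckeBetaBar Kbar M q (jF M))).coeff (-(M : ℤ)) =
      (nrmEmb M q hcop j (heckeBetaBar Kbar M q (jF M))).coeff (-(M : ℤ)) := by rw [hij]
  cases i with
  | none =>
    cases j with
    | none => rfl
    | some b =>
      rw [nrmEmb_none_coeff M q hq, nrmEmb_some_coeff] at h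
      exact absurd h.symm (Units.ne_zero _)
  | some a =>
    cases j with
    | none =>
      rw [nrmEmb_none_coeff M q hq, nrmEmb_some_coeff] at h
      exact absurd h (Units.ne_zero _)
    | some b =>
      rw [nrmEmb_some_coeff, nrmEmb_some_coeff] at h
      have h2 : zetaK q ^ (a : ℕ) = zetaK q ^ (b : ℕ) := inv_injective (Units.ext h)
      have h3 := (isPrimitiveRoot_zetaK q).pow_inj a.2 b.2 h2
      exact congrArg some (Fin.ext h3)

theorem normAlpha_eq_norm (M q : ℕ) [NeZero M] [NeZero q] (u : FN (M * q)) :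
    normAlpha M q u = @Algebra.norm (FN M) (FN (M * q)) _ _ (algAlpha M q) u := rfl

theorem nrm_algebraMap_algAlpha (M q : ℕ) [NeZero M] [NeZero q] (x : FN M) :
    @algebraMap (FN M) (FN (M * q)) _ _ (algAlpha M q) x = heckeAlphaBar Kbar M q x := rfl

/-- The finite embeddings in terms of `w`. -/
theorem nrmEmb_some_eq (M q : ℕ) [NeZero M] [NeZero q] (hq : q.Prime) (hcop : Nat.Coprime q M)
    (w : FN (M * q) →ₐ[Kbar] FN (M * q))
    (hw1 : ∀ x : FN M, w (heckeAlphaBar Kbar M q x) = heckeBetaBar Kbar M q x)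
    (hw2 : ∀ x : FN M, w (heckeBetaBar Kbar M q x) = heckeAlphaBar Kbar M q x)
    (b : Fin q) (u : FN (M * q)) :
    nrmEmb M q hcop (some b) u =
      qExpand Kbar M (twist (zetaK q ^ (b : ℕ)) ((w u : FN (M * q)) : LaurentSeries Kbar)) := by
  refine FN_mul_induction (M := M) (q := q) hq
    (P := fun u => nrmEmb M q hcop (some b) u =
      qExpand Kbar M (twist (zetaK q ^ (b : ℕ)) ((w u : FN (M * q)) : LaurentSeries Kbar)))
    ?_ ?_ ?_ ?_ ?_ ?_ u
  · intro x
    have h1 : (zetaK q ^ (b : ℕ)) ^ q = 1 := by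
      rw [← pow_mul, mul_comm, pow_mul, (isPrimitiveRoot_zetaK q).pow_eq_one, one_pow]
    rw [nrmEmb_some_alpha, hw1, coe_heckeBetaBar, Lib.MulHecke.twist_eq_tw,
      Lib.MulHecke.tw_qExpand, h1, Lib.MulHecke.tw_one, qExpand_qExpand]
  · intro x
    rw [nrmEmb_some_beta, hw2, coe_heckeAlphaBar]
  · intro f g hf hg
    rw [map_add, hf, hg, map_add w, ← map_add, ← map_add]
    rfl
  · intro f hf
    rw [map_neg, hf, map_neg w, ← map_neg, ← map_neg]
    rfl
  · intro f g hf hg
    rw [map_mul, hf, hg, map_mul w, ← map_mul, ← map_mul]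
    rfl
  · intro f hf
    rw [map_inv₀, hf, map_inv₀ w, ← map_inv₀, ← map_inv₀]
    rfl

/-- The product formula at level of `t = q^(1/(M q))`-expansions. -/
theorem qExpand_mul_normAlpha (M q : ℕ) [NeZero M] [NeZero q] (hq : q.Prime) (hqM : ¬ q ∣ M)
    (w : FN (M * q) →ₐ[Kbar] FN (M * q))
    (hw1 : ∀ x : FN M, w (heckeAlphaBar Kbar M q x) = heckeBetaBar Kbar M q x)
    (hw2 : ∀ x : FN M, w (heckeBetaBar Kbar M q x) = heckeAlphaBar Kbar M q x)
    (u : FN (M * q)) :
    qExpand Kbar (M * q) ((normAlpha M q u : FN M) : LaurentSeries Kbar) =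
      qExpand Kbar (M * q) (u : LaurentSeries Kbar) *
        ∏ b ∈ Finset.range q,
          qExpand Kbar M (twist (zetaK q ^ b) ((w u : FN (M * q)) : LaurentSeries Kbar)) := by
  have hcop : Nat.Coprime q M := (Nat.Prime.coprime_iff_not_dvd hq).2 hqM
  let _ := algAlpha M q
  have : Module.Finite (FN M) (FN (M * q)) := Lib.MulHecke.finite_algAlpha M q
  have key := nrm_map_norm_eq_prod (nrmExpHom (M * q) M) (nrmEmb M q hcop) (by
    intro i x
    rw [nrm_algebraMap_algAlpha, nrmExpHom_apply]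
    cases i with
    | none => exact nrmEmb_none_alpha M q hcop x
    | some b => exact nrmEmb_some_alpha M q hcop b x) (nrmEmb_injective M q hq hcop)
    (by rw [Lib.MulHecke.finrank_algAlpha M q hq hqM]; simp) u
  rw [← normAlpha_eq_norm, nrmExpHom_apply, Fintype.prod_option, nrmEmb_none,
    nrmExpHom_apply] at key
  rw [key]
  congr 1
  rw [← Fin.prod_univ_eq_prod_range
    (fun b => qExpand Kbar M (twist (zetaK q ^ b) ((w u : FN (M * q)) : LaurentSeries Kbar))) q]
  exact Finset.prod_congr rfl fun b _ => nrmEmb_some_eq M q hq hcop w hw1 hw2 b u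

theorem qExpand_normAlpha (M q : ℕ) [NeZero M] [NeZero q] (hq : q.Prime) (hqM : ¬ q ∣ M)
    (w : FN (M * q) →ₐ[Kbar] FN (M * q))
    (hw1 : ∀ x : FN M, w (heckeAlphaBar Kbar M q x) = heckeBetaBar Kbar M q x)
    (hw2 : ∀ x : FN M, w (heckeBetaBar Kbar M q x) = heckeAlphaBar Kbar M q x)
    (u : FN (M * q)) :
    qExpand Kbar q ((normAlpha M q u : FN M) : LaurentSeries Kbar) =
      qExpand Kbar q (u : LaurentSeries Kbar) *
        ∏ b ∈ Finset.range q, twist (zetaK q ^ b) ((w u : FN (M * q)) : LaurentSeries Kbar) := by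
  apply qExpand_injective (R := Kbar) M
  rw [qExpand_qExpand, qExpand_mul_normAlpha M q hq hqM w hw1 hw2 u, map_mul, map_prod,
    qExpand_qExpand]

end Fermat.Agent.C1

end
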