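/-
Project C1 (S34 + S35), architect helper23.  TASK C1-M1: existence of the Atkin-Lehner involution
`w` of `FN (M q)`.

Proof.  Let `τ₀` be the embedding of `Lib.MulHecke.exists_embedding M q _ 0`:
`τ₀ (α x) = qExpand (M q) x`, `τ₀ (β x) = qExpand M (twist 1 x) = qExpand M x`.  By
`FN_mul_induction` every `τ₀ u` is of the form `qExpand M (v : LaurentSeries)` with `v : FN (M q)`
(`qExpand (M q) x = qExpand M (qExpand q x) = qExpand M (β x)`; the set of such `u` is closed under
the field operations).  `v` is unique (`qExpand` is injective); put `w u := v`.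
-/
import Fermat.Agent.C1.AL
import Fermat.Agent.Lib.MulHecke.Embed

set_option autoImplicit false

noncomputable section

namespace Fermat.Agent.C1

open ModularCurve AlgebraicCurve Fermat.Agent.S24 Fermat.Agent.S24.B Fermat.Agent.GAL
  Fermat.Agent.GAL.E

/-- Every value of a ring homomorphism `τ` with the values of `τ₀` on `α`, `β` lies in
`qExpand M (FN (M q))`. -/
theorem exists_w_aux (M q : ℕ) [NeZero M] [NeZero q] (hq : q.Prime)
    (τ : FN (M * q) →+* LaurentSeries Kbar)
    (h1 : ∀ x : FN M, τ (heckeAlphaBar Kbar M q x) = qExpand Kbar (M * q) (x : LaurentSeries Kbar))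
    (h2 : ∀ x : FN M, τ (heckeBetaBar Kbar M q x) = qExpand Kbar M (x : LaurentSeries Kbar))
    (u : FN (M * q)) :
    ∃ v : FN (M * q), τ u = qExpand Kbar M (v : LaurentSeries Kbar) := by
  refine FN_mul_induction (M := M) (q := q) hq
    (P := fun u => ∃ v : FN (M * q), τ u = qExpand Kbar M (v : LaurentSeries Kbar))
    ?_ ?_ ?_ ?_ ?_ ?_ u
  · intro x
    exact ⟨heckeBetaBar Kbar M q x, by rw [h1, coe_heckeBetaBar, qExpand_qExpand]⟩
  · intro x
    exact ⟨heckeAlphaBar Kbar M q x, by rw [h2, coe_heckeAlphaBar]⟩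
  · rintro f g ⟨a, ha⟩ ⟨b, hb⟩
    exact ⟨a + b, by rw [map_add, ha, hb, ← map_add]; rfl⟩
  · rintro f ⟨a, ha⟩
    exact ⟨-a, by rw [map_neg, ha, ← map_neg]; rfl⟩
  · rintro f g ⟨a, ha⟩ ⟨b, hb⟩
    exact ⟨a * b, by rw [map_mul, ha, hb, ← map_mul]; rfl⟩
  · rintro f ⟨a, ha⟩
    exact ⟨a⁻¹, by rw [map_inv₀, ha, ← map_inv₀]; rfl⟩

theorem exists_w (M q : ℕ) [NeZero M] [NeZero q] (hq : q.Prime) (hqM : ¬ q ∣ M) :
    ∃ w : FN (M * q) →ₐ[Kbar] FN (M * q),
      (∀ x : FN M, w (heckeAlphaBar Kbar M q x) = heckeBetaBar Kbar M q x) ∧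
      (∀ x : FN M, w (heckeBetaBar Kbar M q x) = heckeAlphaBar Kbar M q x) := by
  have hcop : Nat.Coprime q M := (Nat.Prime.coprime_iff_not_dvd hq).2 hqM
  obtain ⟨τ, h1, h2'⟩ := Lib.MulHecke.exists_embedding M q hcop 0
  have h2 : ∀ x : FN M, τ (heckeBetaBar Kbar M q x) = qExpand Kbar M (x : LaurentSeries Kbar) := by
    intro x
    rw [h2', pow_zero, Lib.MulHecke.twist_eq_tw, Lib.MulHecke.tw_one]
  have hex := exists_w_aux M q hq τ h1 h2
  choose wf hwf using hex
  have hinj : ∀ a b : FN (M * q),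
      qExpand Kbar M (a : LaurentSeries Kbar) = qExpand Kbar M (b : LaurentSeries Kbar) →
        a = b := fun a b h => Subtype.ext (qExpand_injective (R := Kbar) M h)
  have hal : ∀ x : FN M, wf (heckeAlphaBar Kbar M q x) = heckeBetaBar Kbar M q x := by
    intro x
    apply hinj
    rw [← hwf, h1, coe_heckeBetaBar, qExpand_qExpand]
  have hbe : ∀ x : FN M, wf (heckeBetaBar Kbar M q x) = heckeAlphaBar Kbar M q x := by
    intro x
    apply hinj
    rw [← hwf, h2, coe_heckeAlphaBar]
  refine ⟨{ toFun := wf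
            map_one' := ?_
            map_mul' := ?_
            map_zero' := ?_
            map_add' := ?_
            commutes' := ?_ }, hal, hbe⟩
  · apply hinj
    rw [← hwf, map_one]
    exact (map_one (qExpand Kbar M)).symm
  · intro a b
    apply hinj
    rw [← hwf, map_mul, hwf, hwf, ← map_mul]
    rfl
  · apply hinj
    rw [← hwf, map_zero]
    exact (map_zero (qExpand Kbar M)).symm
  · intro a b
    apply hinj
    rw [← hwf, map_add, hwf, hwf, ← map_add]
    rfl
  · intro c
    have e : algebraMap Kbar (FN (M * q)) c = heckeAlphaBar Kbar M q (algebraMap Kbar (FN M) c) :=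
      ((heckeAlphaBar Kbar M q).commutes c).symm
    show wf (algebraMap Kbar (FN (M * q)) c) = algebraMap Kbar (FN (M * q)) c
    rw [e, hal, AlgHom.commutes, AlgHom.commutes]

end Fermat.Agent.C1

end
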