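/-
Project C1 (S34 + S35), architect helper23.  TASK C1-M3: existence of `ALData M q`.
`w` from `exists_w`, `nm := GAL.E.normAlpha M q`, `qExpand_nm` from `qExpand_normAlpha`;
`isKum_w`, `isKum_al`: as `Lib.MulHecke.IsKum.beta` (`Place.ord_restrictAlong`; `w` is bijective by
`w ∘ w = id`, hence integral; `α` is integral: `S37.HeckeInputs`); `isKum_nm`: as
`Lib.MulHecke.IsKum.heckeF` (`Lib.MulHecke.dvd_ord_norm`).
-/
import Fermat.Agent.C1.Mod.W
import Fermat.Agent.C1.Mod.Norm
import Fermat.Agent.Lib.MulHecke.Norm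

set_option autoImplicit false

noncomputable section

namespace Fermat.Agent.C1

open ModularCurve AlgebraicCurve Fermat.Agent.S24 Fermat.Agent.S24.B Fermat.Agent.GAL
  Fermat.Agent.GAL.E

/-- an endomorphism exchanging `α` and `β` is an involution -/
theorem w_w_of_swap {M q : ℕ} [NeZero M] [NeZero q] (hq : q.Prime)
    (w : FN (M * q) →ₐ[Kbar] FN (M * q))
    (hw1 : ∀ x : FN M, w (heckeAlphaBar Kbar M q x) = heckeBetaBar Kbar M q x)
    (hw2 : ∀ x : FN M, w (heckeBetaBar Kbar M q x) = heckeAlphaBar Kbar M q x)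
    (u : FN (M * q)) : w (w u) = u := by
  refine FN_mul_induction (M := M) (q := q) hq (P := fun u => w (w u) = u) ?_ ?_ ?_ ?_ ?_ ?_ u
  · intro x; rw [hw1, hw2]
  · intro x; rw [hw2, hw1]
  · intro f g hf hg; rw [map_add, map_add, hf, hg]
  · intro f hf; rw [map_neg, map_neg, hf]
  · intro f g hf hg; rw [map_mul, map_mul, hf, hg]
  · intro f hf; rw [map_inv₀, map_inv₀, hf]

/-- pull-back along an integral embedding preserves Kummer elements -/
theorem isKum_map {N N' n : ℕ} (φ : FN N →ₐ[Kbar] FN N') (hφ : φ.toRingHom.IsIntegral) {u : FN N}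
    (hu : IsKum N n u) : IsKum N' n (φ u) := by
  intro v
  rw [Place.ord_restrictAlong φ hφ v u]
  exact Dvd.dvd.mul_left (hu _) _

theorem isKum_normAlpha {M n : ℕ} (q : ℕ) [NeZero M] [NeZero q] {u : FN (M * q)}
    (hu : IsKum (M * q) n u) : IsKum M n (normAlpha M q u) := by
  intro v
  let _ := algAlpha M q
  have : IsScalarTower Kbar (FN M) (FN (M * q)) := isScalarTower_along (heckeAlphaBar Kbar M q)
  have : Module.Finite (FN M) (FN (M * q)) := Lib.MulHecke.finite_algAlpha M q
  exact Lib.MulHecke.dvd_ord_norm (K := Kbar) (n : ℤ) u hu v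

theorem nonempty_alData (M q : ℕ) [NeZero M] [NeZero q] (hq : q.Prime) (hqM : ¬ q ∣ M) :
    Nonempty (ALData M q) := by
  obtain ⟨w, hw1, hw2⟩ := exists_w M q hq hqM
  have hsurj : Function.Surjective w.toRingHom := fun u => ⟨w u, w_w_of_swap hq w hw1 hw2 u⟩
  exact ⟨{
    w := w
    w_al := hw1
    w_be := hw2
    isKum_w := fun n u hu => isKum_map w (RingHom.isIntegral_of_surjective _ hsurj) hu
    nm := normAlpha M q
    qExpand_nm := qExpand_normAlpha M q hq hqM w hw1 hw2
    isKum_nm := fun n u hu => isKum_normAlpha q hu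
    isKum_al := fun n x hx =>
      isKum_map (heckeAlphaBar Kbar M q) (S37.HeckeInputs.alpha_integral M q) hx }⟩

end Fermat.Agent.C1

end
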