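/-
Project C1 (S34 + S35).  Additive twin of `C1/Mod/Norm.lean` (requested by helper95, block G of
S34/Nodal/Inst): the `q`-expansion of the trace along `α`,
`(Tr_α u)(t^q) = u(t^q) + ∑_{b<q} (w u)(ζ^b t)`.
-/
import Fermat.Agent.C1.Mod.Norm

set_option autoImplicit false

noncomputable section

namespace Fermat.Agent.C1

open ModularCurve AlgebraicCurve Fermat.Agent.S24 Fermat.Agent.S24.B Fermat.Agent.GAL
  Fermat.Agent.GAL.E

/-- The trace is the sum over any full set of embeddings (abstract field theory). -/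
theorem algebraMap_trace_eq_sum {F E Ω ι : Type*} [Field F] [Field E] [Field Ω] [Algebra F E]
    [Algebra F Ω] [FiniteDimensional F E] [Algebra.IsSeparable F E] [Fintype ι]
    (τ : ι → E →ₐ[F] Ω) (hτ : Function.Injective τ) (hcard : Fintype.card ι = Module.finrank F E)
    (y : E) : algebraMap F Ω (Algebra.trace F E y) = ∑ i, τ i y := by
  classical
  let Ωb := AlgebraicClosure Ω
  let j : Ω →ₐ[F] Ωb := IsScalarTower.toAlgHom F Ω Ωb
  have hj : Function.Injective j := j.toRingHom.injective
  let φ : ι → (E →ₐ[F] Ωb) := fun i => j.comp (τ i)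
  have hφ : Function.Injective φ := by
    intro a b hab
    apply hτ
    ext x
    apply hj
    exact DFunLike.congr_fun hab x
  have hc : Fintype.card (E →ₐ[F] Ωb) = Module.finrank F E := AlgHom.card F E Ωb
  have hbij : Function.Bijective φ :=
    (Fintype.bijective_iff_injective_and_card φ).2 ⟨hφ, by rw [hcard, hc]⟩
  apply hj
  have h1 : j (algebraMap F Ω (Algebra.trace F E y)) = algebraMap F Ωb (Algebra.trace F E y) :=
    j.commutes _
  rw [h1, trace_eq_sum_embeddings Ωb, map_sum]
  exact (Fintype.sum_bijective φ hbij _ _ fun i => rfl).symm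

/-- The trace formula for ring homomorphisms. -/
theorem trc_map_trace_eq_sum {F E Ω ι : Type*} [Field F] [Field E] [Field Ω] [Algebra F E]
    [FiniteDimensional F E] [Algebra.IsSeparable F E] [Fintype ι] (φ : F →+* Ω)
    (τ : ι → E →+* Ω) (hφ : ∀ i x, τ i (algebraMap F E x) = φ x) (hτ : Function.Injective τ)
    (hcard : Fintype.card ι = Module.finrank F E) (y : E) :
    φ (Algebra.trace F E y) = ∑ i, τ i y := by
  let _ := φ.toAlgebra
  refine algebraMap_trace_eq_sum (Ω := Ω)
    (fun i => ({ τ i with commutes' := hφ i } : E →ₐ[F] Ω)) ?_ hcard y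
  intro i j hij
  apply hτ
  ext x
  exact DFunLike.congr_fun hij x

/-- The trace along `α`. -/
def traceAlpha (M q : ℕ) [NeZero M] [NeZero q] : FN (M * q) →+ FN M :=
  letI := algAlpha M q
  (Algebra.trace (FN M) (FN (M * q))).toAddMonoidHom

theorem traceAlpha_eq_trace (M q : ℕ) [NeZero M] [NeZero q] (u : FN (M * q)) :
    traceAlpha M q u = @Algebra.trace (FN M) (FN (M * q)) _ _ (algAlpha M q) u := rfl

/-- The sum formula at level of `t = q^(1/(M q))`-expansions. -/
theorem qExpand_mul_traceAlpha (M q : ℕ) [NeZero M] [NeZero q] (hq : q.Prime) (hqM : ¬ q ∣ M)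
    (w : FN (M * q) →ₐ[Kbar] FN (M * q))
    (hw1 : ∀ x : FN M, w (heckeAlphaBar Kbar M q x) = heckeBetaBar Kbar M q x)
    (hw2 : ∀ x : FN M, w (heckeBetaBar Kbar M q x) = heckeAlphaBar Kbar M q x)
    (u : FN (M * q)) :
    qExpand Kbar (M * q) ((traceAlpha M q u : FN M) : LaurentSeries Kbar) =
      qExpand Kbar (M * q) (u : LaurentSeries Kbar) +
        ∑ b ∈ Finset.range q,
          qExpand Kbar M (twist (zetaK q ^ b) ((w u : FN (M * q)) : LaurentSeries Kbar)) := by
  have hcop : Nat.Coprime q M := (Nat.Prime.coprime_iff_not_dvd hq).2 hqM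
  let _ := algAlpha M q
  have : Module.Finite (FN M) (FN (M * q)) := Lib.MulHecke.finite_algAlpha M q
  have key := trc_map_trace_eq_sum (nrmExpHom (M * q) M) (nrmEmb M q hcop) (by
    intro i x
    rw [nrm_algebraMap_algAlpha, nrmExpHom_apply]
    cases i with
    | none => exact nrmEmb_none_alpha M q hcop x
    | some b => exact nrmEmb_some_alpha M q hcop b x) (nrmEmb_injective M q hq hcop)
    (by rw [Lib.MulHecke.finrank_algAlpha M q hq hqM]; simp) u
  rw [← traceAlpha_eq_trace, nrmExpHom_apply, Fintype.sum_option, nrmEmb_none,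
    nrmExpHom_apply] at key
  rw [key]
  congr 1
  rw [← Fin.sum_univ_eq_sum_range
    (fun b => qExpand Kbar M (twist (zetaK q ^ b) ((w u : FN (M * q)) : LaurentSeries Kbar))) q]
  exact Finset.sum_congr rfl fun b _ => nrmEmb_some_eq M q hq hcop w hw1 hw2 b u

/-- `(Tr_α u)(t^q) = u(t^q) + ∑_{b<q} (w u)(ζ^b t)`. -/
theorem qExpand_traceAlpha (M q : ℕ) [NeZero M] [NeZero q] (hq : q.Prime) (hqM : ¬ q ∣ M)
    (w : FN (M * q) →ₐ[Kbar] FN (M * q))
    (hw1 : ∀ x : FN M, w (heckeAlphaBar Kbar M q x) = heckeBetaBar Kbar M q x)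
    (hw2 : ∀ x : FN M, w (heckeBetaBar Kbar M q x) = heckeAlphaBar Kbar M q x)
    (u : FN (M * q)) :
    qExpand Kbar q ((traceAlpha M q u : FN M) : LaurentSeries Kbar) =
      qExpand Kbar q (u : LaurentSeries Kbar) +
        ∑ b ∈ Finset.range q, twist (zetaK q ^ b) ((w u : FN (M * q)) : LaurentSeries Kbar) := by
  apply qExpand_injective (R := Kbar) M
  rw [qExpand_qExpand, qExpand_mul_traceAlpha M q hq hqM w hw1 hw2 u, map_add, map_sum,
    qExpand_qExpand]

end Fermat.Agent.C1

end
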